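import Fermat.Agent.Ribet.H769.HorDesc
import Fermat.Prelude.Def_ModularCurve_LaurentCoeff

/-!
# RIBET row 38, CORE-OUT WILD, HOR-DESC: the concrete input `K₂ = K₁(E₂)` (helper769)

For fields `E₁ → E₂` of characteristic zero and ANY `Algebra` structure
`laurentBaseChange E₁ F₀ → laurentBaseChange E₂ F₀` which is coefficientwise
(`coeffMap` of the embedding `E₁ → E₂`), the upper field is generated over the lower one by the
constants of `E₂`.  This is hypothesis `hK₂` of `horDesc_frame769` for
`K₁ = A2.Mod.FE E₁ N`, `K₂ = A2.Mod.FE E₂ N`.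
-/

set_option autoImplicit false
set_option linter.unusedSectionVars false
set_option linter.style.haveILetI false

namespace Fermat.Agent.Ribet.H769

open ModularCurve

variable {E₁ E₂ : Type*} [Field E₁] [Algebra ℚ E₁] [Field E₂] [Algebra ℚ E₂]
  (F₀ : IntermediateField ℚ (LaurentSeries ℚ))

/-- `K₂ = K₁(constants of E₂)` for every coefficientwise level map. -/
theorem adjoin_const_laurentBaseChange769 (j : E₁ →+* E₂)
    [Algebra (laurentBaseChange E₁ F₀) (laurentBaseChange E₂ F₀)]
    (hφ : ∀ f : laurentBaseChange E₁ F₀,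
      ((algebraMap (laurentBaseChange E₁ F₀) (laurentBaseChange E₂ F₀) f :
        laurentBaseChange E₂ F₀) : LaurentSeries E₂) = coeffMap j (f : LaurentSeries E₁)) :
    IntermediateField.adjoin (laurentBaseChange E₁ F₀)
      (Set.range (algebraMap E₂ (laurentBaseChange E₂ F₀))) = ⊤ := by
  set T : IntermediateField (laurentBaseChange E₁ F₀) (laurentBaseChange E₂ F₀) :=
    IntermediateField.adjoin (laurentBaseChange E₁ F₀)
      (Set.range (algebraMap E₂ (laurentBaseChange E₂ F₀))) with hT
  have hj : j.comp (algebraMap ℚ E₁) = algebraMap ℚ E₂ := Subsingleton.elim _ _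
  -- the image of `T` in the Laurent series field
  set T' : Subfield (LaurentSeries E₂) :=
    T.toSubfield.map ((laurentBaseChange E₂ F₀).val : laurentBaseChange E₂ F₀ →+* _) with hT'
  have hle : Subfield.closure (Set.range (algebraMap E₂ (LaurentSeries E₂)) ∪
      (⇑(coeffEmb E₂) '' (F₀ : Set (LaurentSeries ℚ)))) ≤ T' := by
    rw [Subfield.closure_le]
    rintro x (⟨e, rfl⟩ | ⟨g, hg, rfl⟩)
    · refine ⟨algebraMap E₂ (laurentBaseChange E₂ F₀) e, ?_, ?_⟩
      · exact IntermediateField.subset_adjoin _ _ ⟨e, rfl⟩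
      · exact (IsScalarTower.algebraMap_apply E₂ (laurentBaseChange E₂ F₀)
          (LaurentSeries E₂) e).symm
    · refine ⟨algebraMap (laurentBaseChange E₁ F₀) (laurentBaseChange E₂ F₀)
        ⟨coeffEmb E₁ g, coeffEmb_mem_laurentBaseChange E₁ hg⟩, T.algebraMap_mem _, ?_⟩
      show ((algebraMap (laurentBaseChange E₁ F₀) (laurentBaseChange E₂ F₀)
        ⟨coeffEmb E₁ g, coeffEmb_mem_laurentBaseChange E₁ hg⟩ : laurentBaseChange E₂ F₀) :
          LaurentSeries E₂) = coeffEmb E₂ g
      rw [hφ]
      show coeffMap j (coeffEmb E₁ g) = coeffEmb E₂ g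
      rw [coeffEmb, coeffEmb, coeffMap_coeffMap, hj]
  refine top_unique (fun z _ => ?_)
  have hz : (z : LaurentSeries E₂) ∈ T' := hle (mem_laurentBaseChange_iff.mp z.2)
  obtain ⟨z', hz', hzz⟩ := hz
  have : z' = z := Subtype.ext hzz
  rw [← this]
  exact hz'

/-- Intermediate fields of an algebraic extension of `ℚ` are algebraic over `ℚ`
(hypothesis `halgE₂` of `horDesc_frame769` for `E₂ : IntermediateField ℚ ℚ̄`). -/
theorem isAlgebraic_rat_intermediateField769 {K : Type*} [Field K] [Algebra ℚ K]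
    [Algebra.IsAlgebraic ℚ K] (E : IntermediateField ℚ K) : Algebra.IsAlgebraic ℚ E := by
  refine ⟨fun x => ?_⟩
  have h := Algebra.IsAlgebraic.isAlgebraic (R := ℚ) (x : K)
  exact (isAlgebraic_algebraMap_iff (algebraMap E K).injective).mp h

end Fermat.Agent.Ribet.H769
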