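import Fermat.Agent.S18.H845.ConstExt
import Fermat.Agent.A2.Spec

/-!
# RIBET row 38, CORE-OUT WILD, `WildFrame` piece HOR-DESC (helper769)

Abstract descent of horizontal `p`-divisibility along a constant-field extension.

Fields `E₁ ⊆ L₁` and `E₂ ⊆ K₂`, a field `L₂` over `K₂` and over `L₁`, generated over `L₁` by
elements algebraic over `E₁` (e.g. by the constants of `E₂`).  If `f₂ ∈ K₂` is horizontally
`p`-divisible (`A2.DivisibleDiv E₂ p f₂`) and `f₂ = lc · f' · b ^ p` in `L₂` with `lc ∈ E₂ˣ`,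
`f' ∈ L₁`, `b ∈ L₂ˣ`, then `f'` is horizontally `p`-divisible on `L₁`
(`A2.DivisibleDiv E₁ p f'`) — the field `hf'_div` of `H704.CoreOut.WildFrame`.

Route: a discrete valuation ring `V` of `L₁` containing `E₁` extends to a discrete valuation ring
`B` of `L₂` with the SAME uniformiser (`S18.H845.exists_dvr_extension`); `B ∩ K₂` is trivial or a
discrete valuation ring containing `E₂` (`comap_trivial_or_dvr769`); count valuations.
-/

set_option autoImplicit false
set_option linter.unusedSectionVars false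
set_option linter.style.haveILetI false

namespace Fermat.Agent.Ribet.H769

open Polynomial

section Restrict

variable {K L : Type*} [Field K] [Field L]

/-- The valuation of `x` is `1` iff `x` is a unit of the valuation subring. -/
theorem val_eq_one_iff769 (A : ValuationSubring K) (x : K) :
    A.valuation x = 1 ↔ x ∈ A ∧ x⁻¹ ∈ A ∧ x ≠ 0 := by
  constructor
  · intro h
    have hx0 : x ≠ 0 := by
      rintro rfl
      rw [map_zero] at h
      exact zero_ne_one h
    refine ⟨(A.valuation_le_one_iff x).mp h.le, ?_, hx0⟩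
    apply (A.valuation_le_one_iff _).mp
    rw [map_inv₀, h, inv_one]
  · rintro ⟨h1, h2, h0⟩
    have h1' := (A.valuation_le_one_iff x).mpr h1
    have h2' := (A.valuation_le_one_iff _).mpr h2
    rw [map_inv₀] at h2'
    have hv0 : A.valuation x ≠ 0 := (Valuation.ne_zero_iff _).mpr h0
    have h3 : 1 ≤ A.valuation x := (inv_le_one₀ (zero_lt_iff.mpr hv0)).mp h2'
    exact le_antisymm h1' h3

/-- Units of the restriction of a valuation subring to a subfield. -/
theorem comap_val_eq_one_iff769 (B : ValuationSubring L) (κ : K →+* L) (x : K) :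
    (B.comap κ).valuation x = 1 ↔ B.valuation (κ x) = 1 := by
  rw [val_eq_one_iff769, val_eq_one_iff769, ValuationSubring.mem_comap,
    ValuationSubring.mem_comap, map_inv₀]
  have : κ x ≠ 0 ↔ x ≠ 0 := by
    rw [Ne, Ne, map_eq_zero]
  rw [this]

/-- **Restriction of a discrete valuation to a subfield** is trivial or discrete. -/
theorem comap_trivial_or_dvr769 (B : ValuationSubring L) {ϖ : L} (hϖ0 : ϖ ≠ 0)
    (hϖ : B.valuation ϖ < 1)
    (hval : ∀ f : L, f ≠ 0 → ∃ k : ℤ, B.valuation f = B.valuation ϖ ^ k) (κ : K →+* L) :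
    (∀ x : K, x ≠ 0 → B.valuation (κ x) = 1) ∨ IsDiscreteValuationRing (B.comap κ) := by
  classical
  by_cases htriv : ∀ x : K, x ≠ 0 → B.valuation (κ x) = 1
  · exact Or.inl htriv
  right
  push Not at htriv
  obtain ⟨x, hx0, hx1⟩ := htriv
  set c := B.valuation ϖ with hc
  have hc0 : 0 < c := zero_lt_iff.mpr ((Valuation.ne_zero_iff _).mpr hϖ0)
  have hc1 : c ≠ 1 := hϖ.ne
  have hκ0 : ∀ y : K, y ≠ 0 → κ y ≠ 0 := fun y hy => (map_ne_zero κ).mpr hy
  -- a positive exponent occurs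
  have hex : ∃ n : ℕ, 0 < n ∧ ∃ y : K, y ≠ 0 ∧ B.valuation (κ y) = c ^ (n : ℤ) := by
    obtain ⟨k, hk⟩ := hval (κ x) (hκ0 x hx0)
    have hk0 : k ≠ 0 := by
      rintro rfl
      rw [zpow_zero] at hk
      exact hx1 hk
    rcases lt_or_gt_of_ne hk0 with hneg | hpos
    · refine ⟨(-k).toNat, by omega, x⁻¹, inv_ne_zero hx0, ?_⟩
      rw [map_inv₀, map_inv₀, hk, ← zpow_neg]
      congr 1
      omega
    · refine ⟨k.toNat, by omega, x, hx0, ?_⟩
      rw [hk]
      congr 1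
      omega
  set d := Nat.find hex with hd
  obtain ⟨hdpos, y₀, hy₀, hy₀v⟩ := Nat.find_spec hex
  have hmin : ∀ n : ℕ, n < d → ¬ (0 < n ∧ ∃ y : K, y ≠ 0 ∧ B.valuation (κ y) = c ^ (n : ℤ)) :=
    fun n hn => Nat.find_min hex hn
  have hdZ : (0 : ℤ) < (d : ℤ) := by exact_mod_cast hdpos
  -- the uniformiser of the restriction
  have hy₀lt : (B.comap κ).valuation y₀ < 1 := by
    have hle : (B.comap κ).valuation y₀ ≤ 1 := by
      rw [ValuationSubring.valuation_le_one_iff, ValuationSubring.mem_comap,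
        ← ValuationSubring.valuation_le_one_iff, hy₀v]
      exact (zpow_le_one_iff_right_of_lt_one₀ hc0 hϖ).mpr hdZ.le
    refine lt_of_le_of_ne hle ?_
    intro h1
    rw [comap_val_eq_one_iff769, hy₀v] at h1
    have := (zpow_eq_one_iff_right₀ hc0.le hc1).mp h1
    omega
  refine Fermat.Agent.S18.H845.isDiscreteValuationRing_of_val (B.comap κ) hy₀ hy₀lt ?_
  intro f hf
  obtain ⟨k, hk⟩ := hval (κ f) (hκ0 f hf)
  -- Euclidean division of `k` by `d`
  set m := k / (d : ℤ) with hm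
  set r := k % (d : ℤ) with hr
  have hr0 : 0 ≤ r := Int.emod_nonneg _ hdZ.ne'
  have hrd : r < d := Int.emod_lt_of_pos _ hdZ
  have hkr : k = d * m + r := (Int.mul_ediv_add_emod k d).symm
  -- the element `g = f * y₀ ^ (-m)` has exponent `r`
  have hgv : B.valuation (κ (f * y₀ ^ (-m))) = c ^ r := by
    rw [map_mul, map_zpow₀, map_mul, map_zpow₀, hk, hy₀v, ← zpow_mul, ← zpow_add₀ hc0.ne']
    congr 1
    rw [hkr]
    ring
  have hg0 : f * y₀ ^ (-m) ≠ 0 := mul_ne_zero hf (zpow_ne_zero _ hy₀)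
  have hr_zero : r = 0 := by
    by_contra hne
    have hrpos : 0 < r := lt_of_le_of_ne hr0 (Ne.symm hne)
    refine hmin r.toNat (by omega) ⟨by omega, f * y₀ ^ (-m), hg0, ?_⟩
    rw [hgv]
    congr 1
    omega
  refine ⟨m, ?_⟩
  rw [hr_zero, zpow_zero, ← comap_val_eq_one_iff769, map_mul, map_zpow₀] at hgv
  have hv0 : (B.comap κ).valuation y₀ ≠ 0 := (Valuation.ne_zero_iff _).mpr hy₀
  have h2 : (B.comap κ).valuation f
      = (B.comap κ).valuation f * (B.comap κ).valuation y₀ ^ (-m)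
        * (B.comap κ).valuation y₀ ^ m := by
    rw [mul_assoc, ← zpow_add₀ hv0, neg_add_cancel, zpow_zero, mul_one]
  rw [h2, hgv, one_mul]

end Restrict

section Main

variable {E₁ L₁ E₂ K₂ L₂ : Type*} [Field E₁] [CharZero E₁] [Field L₁] [Algebra E₁ L₁]
  [Field E₂] [Field K₂] [Algebra E₂ K₂] [Field L₂] [Algebra K₂ L₂] [Algebra L₁ L₂]

/-- **HOR-DESC** (abstract).  Descent of horizontal `p`-divisibility from `K₂` to `L₁` through
`L₂ = L₁(constants algebraic over E₁)`.  `S` is any set of generators of `L₂ / L₁` consisting of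
elements integral (= algebraic) over `E₁`. -/
theorem horDesc769 (p : ℕ)
    (hE₂ : ∀ e : E₂, ((algebraMap L₁ L₂).comp (algebraMap E₁ L₁)).IsIntegralElem
      (algebraMap K₂ L₂ (algebraMap E₂ K₂ e)))
    (S : Set L₂)
    (hS : ∀ α ∈ S, ((algebraMap L₁ L₂).comp (algebraMap E₁ L₁)).IsIntegralElem α)
    (hgen : IntermediateField.adjoin L₁ S = ⊤)
    {f₂ : K₂} (hdiv : Fermat.Agent.A2.DivisibleDiv E₂ p f₂)
    {f' : L₁} {lc : E₂} {b : L₂} (hlc : lc ≠ 0) (hb : b ≠ 0)
    (hf₂ : algebraMap K₂ L₂ f₂ =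
      algebraMap K₂ L₂ (algebraMap E₂ K₂ lc) * algebraMap L₁ L₂ f' * b ^ p) :
    Fermat.Agent.A2.DivisibleDiv E₁ p f' := by
  classical
  intro V hV hEV
  by_cases hf'0 : f' = 0
  · exact ⟨1, 0, one_ne_zero, V.zero_mem, by rw [inv_zero]; exact V.zero_mem, by
      rw [hf'0, zero_mul]⟩
  letI : Algebra E₁ L₂ := ((algebraMap L₁ L₂).comp (algebraMap E₁ L₁)).toAlgebra
  haveI : IsScalarTower E₁ L₁ L₂ := IsScalarTower.of_algebraMap_eq (fun _ => rfl)
  haveI := hV
  have halg_of : ∀ α : L₂, ((algebraMap L₁ L₂).comp (algebraMap E₁ L₁)).IsIntegralElem α →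
      IsAlgebraic E₁ α := fun α hα => IsIntegral.isAlgebraic hα
  have hgen' : IntermediateField.adjoin L₁ {α : L₂ | IsAlgebraic E₁ α} = ⊤ := by
    apply top_unique
    rw [← hgen]
    exact IntermediateField.adjoin.mono _ _ _ (fun α hα => halg_of α (hS α hα))
  obtain ⟨B, hcomap, -, hBalg, hBirr, hBval⟩ :=
    Fermat.Agent.S18.H845.exists_dvr_extension (E := E₁) (K := L₁) (L := L₂) V hEV hgen'
  obtain ⟨π, hπ⟩ := IsDiscreteValuationRing.exists_irreducible V
  obtain ⟨hπB, hπirr⟩ := hBirr π hπ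
  have hval := hBval π hπ
  set ι : L₁ →+* L₂ := algebraMap L₁ L₂ with hι
  set κ : K₂ →+* L₂ := algebraMap K₂ L₂ with hκ
  set c := B.valuation (ι (π : L₁)) with hc
  have hπ0 : ι (π : L₁) ≠ 0 := by
    rw [Ne, map_eq_zero]
    exact fun h => hπ.ne_zero (Subtype.ext h)
  have hc0 : 0 < c := zero_lt_iff.mpr ((Valuation.ne_zero_iff _).mpr hπ0)
  have hclt : c < 1 := by
    rcases B.valuation_lt_one_or_eq_one ⟨ι (π : L₁), hπB⟩ with h | h
    · exact h
    · exact absurd ((B.valuation_eq_one_iff _).mpr h) hπirr.not_isUnit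
  have hc1 : c ≠ 1 := hclt.ne
  have hmemV : ∀ z : L₁, z ∈ V ↔ ι z ∈ B := fun z => by
    rw [← hcomap, ValuationSubring.mem_comap]
  -- constants of `E₂` are units of `B`
  have hconst : ∀ e : E₂, κ (algebraMap E₂ K₂ e) ∈ B := fun e => hBalg _ (halg_of _ (hE₂ e))
  have hlcv : B.valuation (κ (algebraMap E₂ K₂ lc)) = 1 := by
    rw [val_eq_one_iff769]
    refine ⟨hconst lc, ?_, ?_⟩
    · rw [← map_inv₀, ← map_inv₀]
      exact hconst _
    · rw [Ne, map_eq_zero, map_eq_zero]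
      exact hlc
  -- `f₂ ≠ 0`
  have hιf' : ι f' ≠ 0 := by
    rw [Ne, map_eq_zero]
    exact hf'0
  have hκf₂ : κ f₂ ≠ 0 := by
    rw [hf₂]
    refine mul_ne_zero (mul_ne_zero ?_ hιf') (pow_ne_zero _ hb)
    rw [Ne, map_eq_zero, map_eq_zero]
    exact hlc
  have hf₂0 : f₂ ≠ 0 := fun h => hκf₂ (by rw [h, map_zero])
  -- the valuation of `f₂` is a `p`-th power
  have hf₂v : ∃ m : ℤ, B.valuation (κ f₂) = c ^ ((p : ℤ) * m) := by
    rcases comap_trivial_or_dvr769 B hπ0 hclt hval κ with htriv | hdvr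
    · exact ⟨0, by rw [mul_zero, zpow_zero]; exact htriv f₂ hf₂0⟩
    · obtain ⟨h₂, u₂, hh₂, hu₂, hu₂', hfu⟩ := hdiv (B.comap κ) hdvr
        (fun e => by rw [ValuationSubring.mem_comap]; exact hconst e)
      have hu₂0 : u₂ ≠ 0 := by
        rintro rfl
        rw [zero_mul] at hfu
        exact hf₂0 hfu
      have hu₂v : B.valuation (κ u₂) = 1 := by
        rw [← comap_val_eq_one_iff769, val_eq_one_iff769]
        exact ⟨hu₂, hu₂', hu₂0⟩
      obtain ⟨m, hm⟩ := hval (κ h₂) ((map_ne_zero κ).mpr hh₂)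
      refine ⟨m, ?_⟩
      rw [hfu, map_mul, map_mul, hu₂v, one_mul, map_pow, map_pow, hm, ← zpow_natCast,
        ← zpow_mul, mul_comm]
  obtain ⟨m, hm⟩ := hf₂v
  obtain ⟨k, hk⟩ := hval (ι f') hιf'
  obtain ⟨j, hj⟩ := hval b hb
  -- `k = p * (m - j)`
  have hkey : k = (p : ℤ) * (m - j) := by
    have h1 : B.valuation (κ f₂) = c ^ (k + j * p) := by
      rw [hf₂, map_mul, map_mul, hlcv, one_mul, hk, map_pow, hj, ← zpow_natCast, ← zpow_mul,
        ← zpow_add₀ hc0.ne']
    rw [hm] at h1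
    have h2 := (zpow_right_inj₀ hc0 hc1).mp h1
    linarith
  -- the decomposition
  set n := m - j with hn
  refine ⟨(π : L₁) ^ n, f' * ((π : L₁) ^ n)⁻¹ ^ p, ?_, ?_, ?_, ?_⟩
  · exact zpow_ne_zero _ (fun h => hπ.ne_zero (Subtype.ext h))
  · rw [hmemV, ← ValuationSubring.valuation_le_one_iff]
    apply le_of_eq
    rw [map_mul, map_mul, map_pow, map_pow, map_inv₀, map_inv₀, map_zpow₀, map_zpow₀, hk,
      ← hc, hkey, ← zpow_neg, ← zpow_natCast, ← zpow_mul, ← zpow_add₀ hc0.ne']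
    rw [show (p : ℤ) * n + -n * (p : ℤ) = 0 by ring, zpow_zero]
  · rw [hmemV, ← ValuationSubring.valuation_le_one_iff]
    apply le_of_eq
    rw [map_inv₀, map_inv₀, map_mul, map_mul, map_pow, map_pow, map_inv₀, map_inv₀, map_zpow₀,
      map_zpow₀, hk, ← hc, hkey, ← zpow_neg, ← zpow_natCast, ← zpow_mul,
      ← zpow_add₀ hc0.ne', ← zpow_neg]
    rw [show -((p : ℤ) * n + -n * (p : ℤ)) = 0 by ring, zpow_zero]
  · have hπ0' : (π : L₁) ^ n ≠ 0 := zpow_ne_zero _ (fun h => hπ.ne_zero (Subtype.ext h))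
    rw [inv_pow, mul_assoc, inv_mul_cancel₀ (pow_ne_zero _ hπ0'), mul_one]

end Main

/-- Constants algebraic over `ℚ` are integral over any field `E₁` of characteristic zero, for ANY
pair of ring homomorphisms `E₁ → L₂`, `E₂ → L₂` (ring homomorphisms out of `ℚ` are unique). -/
theorem isIntegralElem_of_isAlgebraic_rat769 {E₁ E₂ L₂ : Type*} [Field E₁] [CharZero E₁]
    [Field E₂] [Algebra ℚ E₂] [Field L₂] (φ : E₁ →+* L₂) (ψ : E₂ →+* L₂) {e : E₂}
    (he : IsAlgebraic ℚ e) : φ.IsIntegralElem (ψ e) := by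
  obtain ⟨P, hP, hPe⟩ := he.isIntegral
  refine ⟨P.map (algebraMap ℚ E₁), hP.map _, ?_⟩
  rw [Polynomial.eval₂_map]
  have hhom : φ.comp (algebraMap ℚ E₁) = ψ.comp (algebraMap ℚ E₂) := Subsingleton.elim _ _
  rw [hhom, ← Polynomial.hom_eval₂, hPe, map_zero]

section Frame

variable {E₁ K₁ L₁ E₂ K₂ L₂ : Type*} [Field E₁] [CharZero E₁] [Field K₁] [Field L₁]
  [Algebra E₁ L₁] [Field E₂] [Field K₂] [Algebra E₂ K₂] [Field L₂] [Algebra K₂ L₂]
  [Algebra L₁ L₂] [Algebra K₁ K₂] [Algebra K₁ L₁] [Algebra K₁ L₂]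
  [IsScalarTower K₁ K₂ L₂] [IsScalarTower K₁ L₁ L₂]

/-- If `K₂ = K₁(constants of E₂)` and `L₂ = K₂(h)` with `h ∈ L₁`, then `L₂` is generated over
`L₁` by the constants of `E₂`. -/
theorem adjoin_const_eq_top769
    (hK₂ : IntermediateField.adjoin K₁ (Set.range (algebraMap E₂ K₂)) = ⊤)
    (h : L₁) (hadj₂ : IntermediateField.adjoin K₂ ({algebraMap L₁ L₂ h} : Set L₂) = ⊤) :
    IntermediateField.adjoin L₁
      (Set.range ((algebraMap K₂ L₂).comp (algebraMap E₂ K₂))) = ⊤ := by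
  set T : IntermediateField L₁ L₂ :=
    IntermediateField.adjoin L₁ (Set.range ((algebraMap K₂ L₂).comp (algebraMap E₂ K₂))) with hT
  -- the image of `K₂` lies in `T`
  have hK₂T : ∀ z : K₂, algebraMap K₂ L₂ z ∈ T := by
    intro z
    have hz : z ∈ IntermediateField.adjoin K₁ (Set.range (algebraMap E₂ K₂)) := by
      rw [hK₂]; exact IntermediateField.mem_top
    induction hz using IntermediateField.adjoin_induction with
    | mem x hx =>
      obtain ⟨e, rfl⟩ := hx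
      exact IntermediateField.subset_adjoin L₁ _ ⟨e, rfl⟩
    | algebraMap x =>
      rw [← IsScalarTower.algebraMap_apply K₁ K₂ L₂, IsScalarTower.algebraMap_apply K₁ L₁ L₂]
      exact T.algebraMap_mem _
    | add x y _ _ hx hy => rw [map_add]; exact T.add_mem hx hy
    | inv x _ hx => rw [map_inv₀]; exact T.inv_mem hx
    | mul x y _ _ hx hy => rw [map_mul]; exact T.mul_mem hx hy
  have key : ∀ z : L₂, z ∈ T := by
    intro z
    have hz : z ∈ IntermediateField.adjoin K₂ ({algebraMap L₁ L₂ h} : Set L₂) := by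
      rw [hadj₂]; exact IntermediateField.mem_top
    induction hz using IntermediateField.adjoin_induction with
    | mem x hx =>
      rw [Set.mem_singleton_iff] at hx
      rw [hx]
      exact T.algebraMap_mem _
    | algebraMap x => exact hK₂T x
    | add x y _ _ hx hy => exact T.add_mem hx hy
    | inv x _ hx => exact T.inv_mem hx
    | mul x y _ _ hx hy => exact T.mul_mem hx hy
  exact top_unique (fun z _ => key z)

/-- **HOR-DESC, frame form**: the field `hf'_div` of `H704.CoreOut.WildFrame` from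
`DivisibleDiv E₂ p f₂`, the relation `hf₂`, `hadj₂`, and `K₂ = K₁(constants of E₂)`. -/
theorem horDesc_frame769 [Algebra ℚ E₂] (halgE₂ : Algebra.IsAlgebraic ℚ E₂) (p : ℕ)
    (hK₂ : IntermediateField.adjoin K₁ (Set.range (algebraMap E₂ K₂)) = ⊤)
    (h : L₁) (hadj₂ : IntermediateField.adjoin K₂ ({algebraMap L₁ L₂ h} : Set L₂) = ⊤)
    {f₂ : K₂} (hdiv : Fermat.Agent.A2.DivisibleDiv E₂ p f₂)
    {f' : L₁} {lc : E₂} {b : L₂} (hlc : lc ≠ 0) (hb : b ≠ 0)
    (hf₂ : algebraMap K₂ L₂ f₂ =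
      algebraMap K₂ L₂ (algebraMap E₂ K₂ lc) * algebraMap L₁ L₂ f' * b ^ p) :
    Fermat.Agent.A2.DivisibleDiv E₁ p f' := by
  have hE₂ : ∀ e : E₂, ((algebraMap L₁ L₂).comp (algebraMap E₁ L₁)).IsIntegralElem
      (algebraMap K₂ L₂ (algebraMap E₂ K₂ e)) := fun e =>
    isIntegralElem_of_isAlgebraic_rat769 ((algebraMap L₁ L₂).comp (algebraMap E₁ L₁))
      ((algebraMap K₂ L₂).comp (algebraMap E₂ K₂)) (halgE₂.isAlgebraic e)
  refine horDesc769 p hE₂ (Set.range ((algebraMap K₂ L₂).comp (algebraMap E₂ K₂))) ?_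
    (adjoin_const_eq_top769 hK₂ h hadj₂) hdiv hlc hb hf₂
  rintro α ⟨e, rfl⟩
  exact hE₂ e

end Frame

end Fermat.Agent.Ribet.H769
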